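/-
Programme JAC (S25), brick A4a HilbChart (helper87), file 1: matrix points.

`k` a commutative ring, `B` a commutative `k`-algebra, `v : Fin g → B` a family of `g` elements
(spanning the "chart subspace" `V`).  For a `k`-algebra `A`:

* `HilbV k v A` : the set of ideals `I` of `A ⊗[k] B` such that `A^g → (A ⊗ B)/I`, `c ↦ ∑ c_i ⊗ v_i`,
  is bijective;
* `MatPt k v A` : pairs `(ρ, e)` of a `k`-algebra map `ρ : B → M_g(A)` and a vector `e ∈ A^g` with
  `ρ(v_i) e = e_i` (the `i`-th standard basis vector);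
* `MatPt.ideal`, `MatPt.ideal_mem_hilbV` : the ideal of a matrix point (annihilator of `e`).
-/
import Mathlib

set_option autoImplicit false

open scoped TensorProduct

namespace Fermat.Agent.Jac.HilbChart87

universe u v w

variable (k : Type u) [CommRing k] {B : Type v} [CommRing B] [Algebra k B] {g : ℕ} (v : Fin g → B)

/-- the `A`-linear map `A^g → A ⊗ B`, `c ↦ ∑ c_i ⊗ v_i`. -/
noncomputable def vmap (A : Type w) [CommRing A] [Algebra k A] : (Fin g → A) →ₗ[A] A ⊗[k] B where
  toFun c := ∑ i, c i ⊗ₜ[k] v i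
  map_add' c c' := by
    simp only [Pi.add_apply, TensorProduct.add_tmul, Finset.sum_add_distrib]
  map_smul' a c := by
    simp only [Pi.smul_apply, RingHom.id_apply, Finset.smul_sum, TensorProduct.smul_tmul',
      smul_eq_mul]

theorem vmap_apply (A : Type w) [CommRing A] [Algebra k A] (c : Fin g → A) :
    vmap k v A c = ∑ i, c i ⊗ₜ[k] v i := rfl

/-- **`Hilb_V(A)`**: ideals `I` of `A ⊗ B` with `A^g ≃ (A ⊗ B)/I` via `c ↦ ∑ c_i ⊗ v_i`. -/
def HilbV (A : Type w) [CommRing A] [Algebra k A] : Set (Ideal (A ⊗[k] B)) :=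
  {I | Function.Bijective (fun c : Fin g → A => Ideal.Quotient.mk I (vmap k v A c))}

/-- **matrix points**: `B`-module structures on `A^g` with a cyclic vector adapted to `v`. -/
structure MatPt (A : Type w) [CommRing A] [Algebra k A] where
  /-- the action of `B` on `A^g` -/
  ρ : B →ₐ[k] Matrix (Fin g) (Fin g) A
  /-- the image of `1` -/
  e : Fin g → A
  cyc : ∀ i, (ρ (v i)).mulVec e = Pi.single i 1

variable {k v} {A : Type w} [CommRing A] [Algebra k A]

theorem MatPt.ext' {p p' : MatPt k v A} (hρ : p.ρ = p'.ρ) (he : p.e = p'.e) : p = p' := by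
  cases p; cases p'; cases hρ; cases he; rfl

namespace MatPt

/-- the action of `A ⊗ B` on `A^g`. -/
noncomputable def act (p : MatPt k v A) : A ⊗[k] B →ₐ[A] Matrix (Fin g) (Fin g) A :=
  Algebra.TensorProduct.lift (Algebra.ofId A (Matrix (Fin g) (Fin g) A)) p.ρ
    (fun a b => by
      rw [Algebra.ofId_apply]
      exact Algebra.commute_algebraMap_left a (p.ρ b))

theorem act_tmul (p : MatPt k v A) (a : A) (b : B) :
    p.act (a ⊗ₜ[k] b) = a • p.ρ b := by
  rw [act, Algebra.TensorProduct.lift_tmul, Algebra.ofId_apply, Algebra.algebraMap_eq_smul_one,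
    smul_mul_assoc, one_mul]

/-- the projection `A ⊗ B → A^g`, `z ↦ z • e`. -/
noncomputable def proj (p : MatPt k v A) : A ⊗[k] B →ₗ[A] (Fin g → A) where
  toFun z := (p.act z).mulVec p.e
  map_add' z z' := by rw [map_add, Matrix.add_mulVec]
  map_smul' a z := by rw [map_smul, Matrix.smul_mulVec, RingHom.id_apply]

theorem proj_apply (p : MatPt k v A) (z : A ⊗[k] B) : p.proj z = (p.act z).mulVec p.e := rfl

theorem proj_mul (p : MatPt k v A) (w z : A ⊗[k] B) :
    p.proj (w * z) = (p.act w).mulVec (p.proj z) := by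
  rw [proj_apply, proj_apply, map_mul, Matrix.mulVec_mulVec]

theorem proj_tmul_v (p : MatPt k v A) (a : A) (i : Fin g) :
    p.proj (a ⊗ₜ[k] v i) = Pi.single i a := by
  rw [proj_apply, act_tmul, Matrix.smul_mulVec, p.cyc, ← Pi.single_smul, smul_eq_mul, mul_one]

theorem proj_vmap (p : MatPt k v A) (c : Fin g → A) : p.proj (vmap k v A c) = c := by
  rw [vmap_apply, map_sum]
  simp only [proj_tmul_v]
  exact Finset.univ_sum_single c

/-- **the ideal of a matrix point**: the annihilator of `e`. -/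
noncomputable def ideal (p : MatPt k v A) : Ideal (A ⊗[k] B) where
  carrier := {z | p.proj z = 0}
  add_mem' {z z'} hz hz' := by
    show p.proj (z + z') = 0
    rw [map_add, hz, hz', add_zero]
  zero_mem' := map_zero _
  smul_mem' w z hz := by
    show p.proj (w * z) = 0
    rw [proj_mul, show p.proj z = 0 from hz, Matrix.mulVec_zero]

theorem mem_ideal (p : MatPt k v A) (z : A ⊗[k] B) : z ∈ p.ideal ↔ p.proj z = 0 := Iff.rfl

theorem sub_vmap_proj_mem (p : MatPt k v A) (z : A ⊗[k] B) :
    z - vmap k v A (p.proj z) ∈ p.ideal := by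
  rw [mem_ideal, map_sub, proj_vmap, sub_self]

theorem ideal_mem_hilbV (p : MatPt k v A) : p.ideal ∈ HilbV k v A := by
  constructor
  · intro c c' h
    have h' : vmap k v A c - vmap k v A c' ∈ p.ideal := Ideal.Quotient.eq.mp h
    rw [mem_ideal, map_sub, proj_vmap, proj_vmap, sub_eq_zero] at h'
    exact h'
  · intro y
    obtain ⟨z, rfl⟩ := Ideal.Quotient.mk_surjective y
    exact ⟨p.proj z, (Ideal.Quotient.eq.mpr (p.sub_vmap_proj_mem z)).symm⟩

end MatPt

end Fermat.Agent.Jac.HilbChart87
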