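/-
Programme JAC (S25), brick A4a HilbChart (helper87), file 6: summary for consumers.

`k` a commutative ring, `B` a `k`-algebra of finite type, `v : Fin g → B`.
The functor on `k`-algebras `A ↦ HilbV k v A` (ideals `I` of `A ⊗[k] B` such that `(A ⊗ B)/I` is free
over `A` with basis the classes of the `1 ⊗ v_i`) is represented by a `k`-algebra of finite type.

* `exists_generators` : a finite-type algebra has a finite generating family `x : Fin n → B`;
* for such `x` (`hx : Algebra.adjoin k (Set.range x) = ⊤`): `HV k x v : Type u` (a quotient of a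
  polynomial ring in `n g² + g` variables, `HV.finiteType`), `univIdeal v hx : Ideal (HV k x v ⊗[k] B)`,
  `univIdeal_mem`, `existsUnique_hom`, `homEquivHilb`, `homEquivHilb_apply`, `homEquivHilb_comp`
  (file `Represent`);
* `HilbV.map_mem` : stability under base change (file `BaseChange`);
* `quotBasis I hI : Module.Basis (Fin g) A ((A ⊗[k] B) ⧸ I)`, `quotBasis_apply` (file `Equiv`);
  here: `HilbV.free`, `HilbV.finite`, `HilbV.finrank_eq`;
* `exists_representing_algebra` : the existential packaging.
-/
import Mathlib
import Fermat.Agent.Jac.HilbChart87.Represent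

set_option autoImplicit false

open scoped TensorProduct

namespace Fermat.Agent.Jac.HilbChart87

universe u v w

variable {k : Type u} [CommRing k] {B : Type v} [CommRing B] [Algebra k B]

/-- a `k`-algebra of finite type is generated by a finite family. -/
theorem exists_generators (k : Type u) [CommRing k] (B : Type v) [CommRing B] [Algebra k B]
    [Algebra.FiniteType k B] :
    ∃ (n : ℕ) (x : Fin n → B), Algebra.adjoin k (Set.range x) = ⊤ := by
  obtain ⟨s, hs⟩ := (Algebra.FiniteType.out : (⊤ : Subalgebra k B).FG)
  refine ⟨s.card, fun i => (s.equivFin.symm i : B), ?_⟩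
  rw [← hs]
  congr 1
  ext b
  constructor
  · rintro ⟨i, rfl⟩
    exact (s.equivFin.symm i).2
  · intro hb
    refine ⟨s.equivFin ⟨b, hb⟩, ?_⟩
    show ((s.equivFin.symm (s.equivFin ⟨b, hb⟩) : s) : B) = b
    rw [Equiv.symm_apply_apply]

section Free

variable {g : ℕ} {v : Fin g → B} {A : Type w} [CommRing A] [Algebra k A]

theorem HilbV.free {I : Ideal (A ⊗[k] B)} (hI : I ∈ HilbV k v A) :
    Module.Free A ((A ⊗[k] B) ⧸ I) :=
  Module.Free.of_basis (quotBasis I hI)

theorem HilbV.finite {I : Ideal (A ⊗[k] B)} (hI : I ∈ HilbV k v A) :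
    Module.Finite A ((A ⊗[k] B) ⧸ I) :=
  Module.Finite.of_basis (quotBasis I hI)

theorem HilbV.finrank_eq [Nontrivial A] {I : Ideal (A ⊗[k] B)} (hI : I ∈ HilbV k v A) :
    Module.finrank A ((A ⊗[k] B) ⧸ I) = g := by
  rw [Module.finrank_eq_card_basis (quotBasis I hI), Fintype.card_fin]

end Free

/-- **representability of `Hilb_V` by a `k`-algebra of finite type** (existential packaging; for the
explicit objects use `HV`, `univIdeal`, `existsUnique_hom`). -/
theorem exists_representing_algebra (k : Type u) [CommRing k] (B : Type v) [CommRing B]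
    [Algebra k B] [Algebra.FiniteType k B] {g : ℕ} (v : Fin g → B) :
    ∃ (H : Type u) (_ : CommRing H) (_ : Algebra k H) (_ : Algebra.FiniteType k H)
      (Iu : Ideal (H ⊗[k] B)), Iu ∈ HilbV k v H ∧
      ∀ (A : Type w) [CommRing A] [Algebra k A] (I : Ideal (A ⊗[k] B)), I ∈ HilbV k v A →
        ∃! φ : H →ₐ[k] A, Ideal.map (tmap φ) Iu = I := by
  obtain ⟨n, x, hx⟩ := exists_generators k B
  exact ⟨HV k x v, inferInstance, inferInstance, HV.finiteType k x v, univIdeal v hx,
    univIdeal_mem v hx, fun A _ _ I hI => existsUnique_hom v hx hI⟩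

end Fermat.Agent.Jac.HilbChart87
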