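/-
Programme JAC (S25), brick A4a HilbChart (helper87), file 2: `MatPt k v A ≃ HilbV k v A`.

From an ideal `I ∈ HilbV k v A` the quotient `Q = (A ⊗ B)/I` is free over `A` with basis the classes of
`1 ⊗ v_i` (`quotBasis`); the matrices of the multiplications by `1 ⊗ b` and the coordinates of `1`
form a matrix point (`MatPt.ofIdeal`).  The two constructions are inverse to each other
(`MatPt.equivHilb`).
-/
import Mathlib
import Fermat.Agent.Jac.HilbChart87.Basic

set_option autoImplicit false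

open scoped TensorProduct

namespace Fermat.Agent.Jac.HilbChart87

universe u v w

variable {k : Type u} [CommRing k] {B : Type v} [CommRing B] [Algebra k B] {g : ℕ} {v : Fin g → B}
  {A : Type w} [CommRing A] [Algebra k A]

section OfIdeal

variable (I : Ideal (A ⊗[k] B)) (hI : I ∈ HilbV k v A)

/-- the `A`-linear equivalence `A^g ≃ (A ⊗ B)/I`, `c ↦ ∑ c_i ⊗ v_i`. -/
noncomputable def quotEquiv : (Fin g → A) ≃ₗ[A] (A ⊗[k] B) ⧸ I :=
  LinearEquiv.ofBijective ((Ideal.Quotient.mkₐ A I).toLinearMap ∘ₗ vmap k v A) hI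

theorem quotEquiv_apply (c : Fin g → A) :
    quotEquiv I hI c = Ideal.Quotient.mk I (vmap k v A c) := rfl

/-- **`(A ⊗ B)/I` is free over `A`** with basis the classes of the `1 ⊗ v_i`. -/
noncomputable def quotBasis : Module.Basis (Fin g) A ((A ⊗[k] B) ⧸ I) :=
  Module.Basis.ofEquivFun (quotEquiv I hI).symm

theorem quotBasis_repr (y : (A ⊗[k] B) ⧸ I) :
    ⇑((quotBasis I hI).repr y) = (quotEquiv I hI).symm y := by
  rw [← Module.Basis.equivFun_apply]
  rfl

theorem quotBasis_apply (i : Fin g) :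
    quotBasis I hI i = Ideal.Quotient.mk I ((1 : A) ⊗ₜ[k] v i) := by
  rw [quotBasis, Module.Basis.coe_ofEquivFun, LinearEquiv.symm_symm]
  show quotEquiv I hI (Pi.single i 1) = _
  rw [quotEquiv_apply, vmap_apply]
  congr 1
  rw [Finset.sum_eq_single i]
  · rw [Pi.single_eq_same]
  · intro j _ hj
    rw [Pi.single_eq_of_ne hj, TensorProduct.zero_tmul]
  · intro h; exact absurd (Finset.mem_univ i) h

theorem quotBasis_repr_mk_vmap (c : Fin g → A) :
    ⇑((quotBasis I hI).repr (Ideal.Quotient.mk I (vmap k v A c))) = c := by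
  rw [quotBasis_repr, ← quotEquiv_apply I hI, LinearEquiv.symm_apply_apply]

/-- the matrix point of an ideal in `HilbV`. -/
noncomputable def MatPt.ofIdeal : MatPt k v A where
  ρ := ((Algebra.leftMulMatrix (quotBasis I hI)).restrictScalars k).comp
    ((Ideal.Quotient.mkₐ k I).comp Algebra.TensorProduct.includeRight)
  e := ⇑((quotBasis I hI).repr 1)
  cyc i := by
    have h1 : (((Algebra.leftMulMatrix (quotBasis I hI)).restrictScalars k).comp
        ((Ideal.Quotient.mkₐ k I).comp Algebra.TensorProduct.includeRight)) (v i) =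
        Algebra.leftMulMatrix (quotBasis I hI) (Ideal.Quotient.mk I ((1 : A) ⊗ₜ[k] v i)) := rfl
    rw [h1, Algebra.leftMulMatrix_mulVec_repr, mul_one, ← quotBasis_apply I hI,
      Module.Basis.repr_self, Finsupp.single_eq_pi_single]

theorem MatPt.ofIdeal_ρ_apply (b : B) :
    (MatPt.ofIdeal I hI).ρ b =
      Algebra.leftMulMatrix (quotBasis I hI) (Ideal.Quotient.mk I ((1 : A) ⊗ₜ[k] b)) := rfl

theorem MatPt.ofIdeal_e : (MatPt.ofIdeal I hI).e = ⇑((quotBasis I hI).repr 1) := rfl

theorem MatPt.ofIdeal_act (z : A ⊗[k] B) :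
    (MatPt.ofIdeal I hI).act z =
      Algebra.leftMulMatrix (quotBasis I hI) (Ideal.Quotient.mk I z) := by
  have h : (MatPt.ofIdeal I hI).act =
      (Algebra.leftMulMatrix (quotBasis I hI)).comp (Ideal.Quotient.mkₐ A I) := by
    apply Algebra.TensorProduct.ext'
    intro a b
    have hab : a ⊗ₜ[k] b = a • ((1 : A) ⊗ₜ[k] b) := by
      rw [TensorProduct.smul_tmul', smul_eq_mul, mul_one]
    rw [MatPt.act_tmul, MatPt.ofIdeal_ρ_apply, AlgHom.comp_apply, hab, map_smul, map_smul]
    rfl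
  rw [h]
  rfl

theorem MatPt.ofIdeal_proj (z : A ⊗[k] B) :
    (MatPt.ofIdeal I hI).proj z = ⇑((quotBasis I hI).repr (Ideal.Quotient.mk I z)) := by
  rw [MatPt.proj_apply, MatPt.ofIdeal_act, MatPt.ofIdeal_e, Algebra.leftMulMatrix_mulVec_repr,
    mul_one]

theorem MatPt.ideal_ofIdeal : (MatPt.ofIdeal I hI).ideal = I := by
  ext z
  rw [MatPt.mem_ideal, MatPt.ofIdeal_proj, ← Ideal.Quotient.eq_zero_iff_mem]
  constructor
  · intro h
    apply (quotBasis I hI).repr.injective
    rw [map_zero]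
    exact DFunLike.coe_injective h
  · intro h
    rw [h, map_zero]
    rfl

end OfIdeal

namespace MatPt

theorem repr_mk_eq_proj (p : MatPt k v A) (z : A ⊗[k] B) :
    ⇑((quotBasis p.ideal p.ideal_mem_hilbV).repr (Ideal.Quotient.mk p.ideal z)) = p.proj z := by
  have h : Ideal.Quotient.mk p.ideal z = Ideal.Quotient.mk p.ideal (vmap k v A (p.proj z)) :=
    Ideal.Quotient.eq.mpr (p.sub_vmap_proj_mem z)
  rw [h, quotBasis_repr_mk_vmap]

theorem act_one_tmul (p : MatPt k v A) (b : B) : p.act ((1 : A) ⊗ₜ[k] b) = p.ρ b := by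
  rw [act_tmul, one_smul]

theorem ofIdeal_ideal (p : MatPt k v A) : MatPt.ofIdeal p.ideal p.ideal_mem_hilbV = p := by
  apply MatPt.ext'
  · apply AlgHom.ext
    intro b
    ext i j
    rw [MatPt.ofIdeal_ρ_apply, Algebra.leftMulMatrix_eq_repr_mul, quotBasis_apply, ← map_mul,
      repr_mk_eq_proj, proj_mul, proj_tmul_v, act_one_tmul, Matrix.mulVec_single_one]
    rfl
  · rw [MatPt.ofIdeal_e, ← map_one (Ideal.Quotient.mk p.ideal), repr_mk_eq_proj, proj_apply,
      map_one, Matrix.one_mulVec]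

/-- **matrix points are the same as points of `Hilb_V`.** -/
noncomputable def equivHilb : MatPt k v A ≃ HilbV k v A where
  toFun p := ⟨p.ideal, p.ideal_mem_hilbV⟩
  invFun I := MatPt.ofIdeal I.1 I.2
  left_inv p := p.ofIdeal_ideal
  right_inv I := Subtype.ext (MatPt.ideal_ofIdeal I.1 I.2)

theorem equivHilb_apply (p : MatPt k v A) : (equivHilb p : Ideal (A ⊗[k] B)) = p.ideal := rfl

end MatPt

end Fermat.Agent.Jac.HilbChart87
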