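/-
Programme JAC (S25), brick A4a HilbChart (helper87), file 3: base change.

For a `k`-algebra map `ψ : A → A'`:
* `MatPt.map ψ p` : the image of a matrix point (apply `ψ` to all matrix entries and to `e`);
* `MatPt.ideal_map` : `(p.map ψ).ideal = Ideal.map (ψ ⊗ id) p.ideal`;
* `HilbV.map_mem` : `Hilb_V` is stable under base change.
-/
import Mathlib
import Fermat.Agent.Jac.HilbChart87.Equiv

set_option autoImplicit false

open scoped TensorProduct

namespace Fermat.Agent.Jac.HilbChart87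

universe u v w w'

variable {k : Type u} [CommRing k] {B : Type v} [CommRing B] [Algebra k B] {g : ℕ} {v : Fin g → B}
  {A : Type w} [CommRing A] [Algebra k A] {A' : Type w'} [CommRing A'] [Algebra k A']

/-- the base change map `ψ ⊗ id : A ⊗ B → A' ⊗ B`. -/
noncomputable abbrev tmap (ψ : A →ₐ[k] A') : A ⊗[k] B →ₐ[k] A' ⊗[k] B :=
  Algebra.TensorProduct.map ψ (AlgHom.id k B)

theorem tmap_tmul (ψ : A →ₐ[k] A') (a : A) (b : B) :
    tmap ψ (a ⊗ₜ[k] b) = ψ a ⊗ₜ[k] b := by
  rw [tmap, Algebra.TensorProduct.map_tmul, AlgHom.id_apply]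

theorem tmap_vmap (ψ : A →ₐ[k] A') (c : Fin g → A) :
    tmap ψ (vmap k v A c) = vmap k v A' (ψ ∘ c) := by
  rw [vmap_apply, vmap_apply, map_sum]
  simp only [tmap_tmul, Function.comp_apply]

namespace MatPt

/-- the image of a matrix point under `ψ : A → A'`. -/
noncomputable def map (ψ : A →ₐ[k] A') (p : MatPt k v A) : MatPt k v A' where
  ρ := (AlgHom.mapMatrix ψ).comp p.ρ
  e := ψ ∘ p.e
  cyc i := by
    funext j
    have h := RingHom.map_mulVec (ψ : A →+* A') (p.ρ (v i)) p.e j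
    rw [p.cyc i] at h
    rw [AlgHom.comp_apply, AlgHom.mapMatrix_apply]
    rw [show (p.ρ (v i)).map ⇑ψ = (p.ρ (v i)).map ⇑(ψ : A →+* A') from rfl]
    rw [show (⇑ψ ∘ p.e) = (⇑(ψ : A →+* A') ∘ p.e) from rfl, ← h]
    by_cases hij : j = i
    · subst hij
      rw [Pi.single_eq_same, Pi.single_eq_same]
      exact map_one ψ
    · rw [Pi.single_eq_of_ne hij, Pi.single_eq_of_ne hij]
      exact map_zero ψ

theorem map_ρ_apply (ψ : A →ₐ[k] A') (p : MatPt k v A) (b : B) :
    (p.map ψ).ρ b = (p.ρ b).map ψ := rfl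

theorem map_e (ψ : A →ₐ[k] A') (p : MatPt k v A) : (p.map ψ).e = ψ ∘ p.e := rfl

theorem map_id (p : MatPt k v A) : p.map (AlgHom.id k A) = p := by
  apply MatPt.ext'
  · apply AlgHom.ext
    intro b
    ext i j
    rfl
  · rfl

theorem map_map {A'' : Type*} [CommRing A''] [Algebra k A''] (ψ : A →ₐ[k] A')
    (ψ' : A' →ₐ[k] A'') (p : MatPt k v A) : (p.map ψ).map ψ' = p.map (ψ'.comp ψ) := by
  apply MatPt.ext'
  · apply AlgHom.ext
    intro b
    ext i j
    rfl
  · rfl

/-- naturality of the projection. -/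
theorem proj_tmap (ψ : A →ₐ[k] A') (p : MatPt k v A) (z : A ⊗[k] B) :
    (p.map ψ).proj (tmap ψ z) = ψ ∘ p.proj z := by
  induction z using TensorProduct.induction_on with
  | zero =>
    rw [map_zero, map_zero, map_zero]
    funext j
    exact (map_zero ψ).symm
  | tmul a b =>
    rw [tmap_tmul, proj_apply, proj_apply, act_tmul, act_tmul, map_ρ_apply, map_e]
    funext j
    have h := RingHom.map_mulVec (ψ : A →+* A') (a • p.ρ b) p.e j
    rw [Function.comp_apply]
    rw [show ψ (((a • p.ρ b).mulVec p.e) j) = (ψ : A →+* A') (((a • p.ρ b).mulVec p.e) j) from rfl,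
      h]
    congr 2
    ext i' j'
    simp [Matrix.map_apply, Matrix.smul_apply]
  | add z z' hz hz' =>
    rw [map_add, map_add, map_add, hz, hz']
    funext j
    simp only [Pi.add_apply, Function.comp_apply, map_add]

theorem tmap_mem_ideal (ψ : A →ₐ[k] A') (p : MatPt k v A) {z : A ⊗[k] B} (hz : z ∈ p.ideal) :
    tmap ψ z ∈ (p.map ψ).ideal := by
  rw [mem_ideal] at hz ⊢
  rw [proj_tmap, hz]
  funext j
  exact map_zero ψ

/-- every element of `A' ⊗ B` is congruent to its normal form modulo the extended ideal. -/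
theorem sub_vmap_proj_mem_map (ψ : A →ₐ[k] A') (p : MatPt k v A) (z' : A' ⊗[k] B) :
    z' - vmap k v A' ((p.map ψ).proj z') ∈ Ideal.map (tmap ψ) p.ideal := by
  induction z' using TensorProduct.induction_on with
  | zero =>
    rw [map_zero, map_zero, sub_zero]
    exact Ideal.zero_mem _
  | tmul a' b =>
    have h1 : tmap ψ ((1 : A) ⊗ₜ[k] b - vmap k v A (p.proj ((1 : A) ⊗ₜ[k] b))) ∈
        Ideal.map (tmap ψ) p.ideal :=
      Ideal.mem_map_of_mem _ (p.sub_vmap_proj_mem _)
    rw [map_sub, tmap_tmul, map_one, tmap_vmap, ← proj_tmap, tmap_tmul, map_one] at h1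
    have h2 := Ideal.mul_mem_left _ (a' ⊗ₜ[k] (1 : B)) h1
    have e1 : a' ⊗ₜ[k] (1 : B) * ((1 : A') ⊗ₜ[k] b) = a' ⊗ₜ[k] b := by
      rw [Algebra.TensorProduct.tmul_mul_tmul, mul_one, one_mul]
    have e2 : ∀ z : A' ⊗[k] B, a' ⊗ₜ[k] (1 : B) * z = a' • z := by
      intro z
      rw [Algebra.smul_def]
      rfl
    have e3 : a' ⊗ₜ[k] b = a' • ((1 : A') ⊗ₜ[k] b) := by
      rw [TensorProduct.smul_tmul', smul_eq_mul, mul_one]
    rw [mul_sub, e1, e2, ← map_smul, ← map_smul, ← e3] at h2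
    exact h2
  | add z z' hz hz' =>
    have : z + z' - vmap k v A' ((p.map ψ).proj (z + z')) =
        (z - vmap k v A' ((p.map ψ).proj z)) + (z' - vmap k v A' ((p.map ψ).proj z')) := by
      rw [map_add, map_add]; abel
    rw [this]
    exact Ideal.add_mem _ hz hz'

/-- **the ideal of the image point is the extension of the ideal.** -/
theorem ideal_map (ψ : A →ₐ[k] A') (p : MatPt k v A) :
    (p.map ψ).ideal = Ideal.map (tmap ψ) p.ideal := by
  apply le_antisymm
  · intro z' hz'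
    have h := sub_vmap_proj_mem_map ψ p z'
    rw [(mem_ideal _ _).mp hz', map_zero, sub_zero] at h
    exact h
  · rw [Ideal.map_le_iff_le_comap]
    intro z hz
    exact tmap_mem_ideal ψ p hz

end MatPt

/-- **`Hilb_V` is stable under base change.** -/
theorem HilbV.map_mem (ψ : A →ₐ[k] A') {I : Ideal (A ⊗[k] B)} (hI : I ∈ HilbV k v A) :
    Ideal.map (tmap ψ) I ∈ HilbV k v A' := by
  have h := ((MatPt.ofIdeal I hI).map ψ).ideal_mem_hilbV
  rwa [MatPt.ideal_map, MatPt.ideal_ofIdeal] at h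

/-- naturality of `MatPt.equivHilb`. -/
theorem MatPt.equivHilb_map (ψ : A →ₐ[k] A') (p : MatPt k v A) :
    ((MatPt.equivHilb (p.map ψ) : HilbV k v A') : Ideal (A' ⊗[k] B)) =
      Ideal.map (tmap ψ) (MatPt.equivHilb p : Ideal (A ⊗[k] B)) :=
  MatPt.ideal_map ψ p

end Fermat.Agent.Jac.HilbChart87
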