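/-
Programme JAC (S25), brick A4a HilbChart (helper87), file 4: the representing algebra.

Data: `x : Fin n → B` generators of the `k`-algebra `B`, `v : Fin g → B`.
`Pol k n g` is the polynomial ring over `k` in the entries of `n` generic `g × g` matrices and of a
generic vector; `HV k x v` is its quotient by
* the entries of `r(X_1, …, X_n)` for all noncommutative polynomials `r` (elements of the free algebra)
  vanishing at `x` in `B` (this contains the commutators), and
* the entries of `w(X) E - e_i` for all `w` in the free algebra with `w(x) = v_i`.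
`HV k x v` is a `k`-algebra of finite type and `(HV k x v →ₐ[k] A) ≃ MatPt k v A` (`homEquivMatPt`),
naturally in `A` (`homEquivMatPt_comp`).
-/
import Mathlib
import Fermat.Agent.Jac.HilbChart87.BaseChange

set_option autoImplicit false

open scoped TensorProduct

namespace Fermat.Agent.Jac.HilbChart87

universe u v w w'

section Descend

variable {k : Type*} [CommSemiring k] {F B M : Type*} [Semiring F] [Ring B] [Ring M]
  [Algebra k F] [Algebra k B] [Algebra k M]

/-- descent of an algebra homomorphism along a surjection (noncommutative source and target). -/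
noncomputable def descend (q : F →ₐ[k] B) (hq : Function.Surjective q) (ρ : F →ₐ[k] M)
    (h : ∀ w w', q w = q w' → ρ w = ρ w') : B →ₐ[k] M where
  toFun b := ρ (Function.surjInv hq b)
  map_one' := by
    rw [← map_one ρ]
    exact h _ _ (by rw [Function.surjInv_eq hq, map_one])
  map_mul' b b' := by
    rw [← map_mul ρ]
    exact h _ _ (by rw [Function.surjInv_eq hq, map_mul, Function.surjInv_eq hq,
      Function.surjInv_eq hq])
  map_zero' := by
    rw [← map_zero ρ]
    exact h _ _ (by rw [Function.surjInv_eq hq, map_zero])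
  map_add' b b' := by
    rw [← map_add ρ]
    exact h _ _ (by rw [Function.surjInv_eq hq, map_add, Function.surjInv_eq hq,
      Function.surjInv_eq hq])
  commutes' c := by
    rw [← AlgHom.commutes ρ c]
    exact h _ _ (by rw [Function.surjInv_eq hq, AlgHom.commutes])

theorem descend_apply (q : F →ₐ[k] B) (hq : Function.Surjective q) (ρ : F →ₐ[k] M)
    (h : ∀ w w', q w = q w' → ρ w = ρ w') (w : F) : descend q hq ρ h (q w) = ρ w :=
  h _ _ (Function.surjInv_eq hq (q w))

end Descend

variable (k : Type u) [CommRing k] {B : Type v} [CommRing B] [Algebra k B] {n g : ℕ}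

/-- the index type of the variables: entries of `n` matrices of size `g`, and of a vector. -/
abbrev Idx (n g : ℕ) : Type := (Fin n × Fin g × Fin g) ⊕ Fin g

/-- the polynomial ring in the entries of `n` generic `g × g` matrices and a generic vector. -/
abbrev Pol (n g : ℕ) : Type u := MvPolynomial (Idx n g) k

/-- the presentation `k⟨X_1, …, X_n⟩ → B`. -/
noncomputable def pres (x : Fin n → B) : FreeAlgebra k (Fin n) →ₐ[k] B := FreeAlgebra.lift k x

theorem pres_ι (x : Fin n → B) (j : Fin n) : pres k x (FreeAlgebra.ι k j) = x j := by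
  rw [pres, FreeAlgebra.lift_ι_apply]

theorem pres_surjective {x : Fin n → B} (hx : Algebra.adjoin k (Set.range x) = ⊤) :
    Function.Surjective (pres k x) := by
  rw [← AlgHom.range_eq_top, eq_top_iff, ← hx, Algebra.adjoin_le_iff]
  rintro _ ⟨j, rfl⟩
  exact ⟨FreeAlgebra.ι k j, pres_ι k x j⟩

section Points

variable {k} {A : Type w} [CommRing A] [Algebra k A]

/-- the matrices of a point `f : Idx n g → A`. -/
def ptMat (f : Idx n g → A) (j : Fin n) : Matrix (Fin g) (Fin g) A :=
  Matrix.of fun a b => f (Sum.inl (j, a, b))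

/-- the vector of a point. -/
def ptVec (f : Idx n g → A) : Fin g → A := fun a => f (Sum.inr a)

/-- the representation of the free algebra attached to a point. -/
noncomputable def ptRep (f : Idx n g → A) : FreeAlgebra k (Fin n) →ₐ[k] Matrix (Fin g) (Fin g) A :=
  FreeAlgebra.lift k (ptMat f)

theorem ptRep_ι (f : Idx n g → A) (j : Fin n) :
    ptRep (k := k) f (FreeAlgebra.ι k j) = ptMat f j := by
  rw [ptRep, FreeAlgebra.lift_ι_apply]

/-- naturality of `ptRep`. -/
theorem mapMatrix_comp_ptRep {A' : Type w'} [CommRing A'] [Algebra k A'] (ψ : A →ₐ[k] A')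
    (f : Idx n g → A) :
    (AlgHom.mapMatrix ψ).comp (ptRep (k := k) f) = ptRep (k := k) (ψ ∘ f) := by
  apply FreeAlgebra.hom_ext
  funext j
  simp only [Function.comp_apply, AlgHom.comp_apply, ptRep_ι]
  ext a b
  rfl

theorem map_ptRep {A' : Type w'} [CommRing A'] [Algebra k A'] (ψ : A →ₐ[k] A')
    (f : Idx n g → A) (w : FreeAlgebra k (Fin n)) :
    (ptRep (k := k) f w).map ψ = ptRep (k := k) (ψ ∘ f) w := by
  rw [← mapMatrix_comp_ptRep]
  rfl

/-- `f` is a point of the chart: the representation factors through `B` and `e` is adapted to `v`. -/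
def IsPt (k : Type u) [CommRing k] {B : Type v} [CommRing B] [Algebra k B] {n g : ℕ}
    {A : Type w} [CommRing A] [Algebra k A] (x : Fin n → B) (v : Fin g → B) (f : Idx n g → A) :
    Prop :=
  (∀ r : FreeAlgebra k (Fin n), pres k x r = 0 → ptRep (k := k) f r = 0) ∧
  (∀ (w : FreeAlgebra k (Fin n)) (i : Fin g), pres k x w = v i →
    (ptRep (k := k) f w).mulVec (ptVec f) = Pi.single i 1)

end Points

/-- the generic point, with values in the polynomial ring. -/
noncomputable def genPt (n g : ℕ) : Idx n g → Pol k n g := fun idx => MvPolynomial.X idx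

/-- the relations. -/
def rels (x : Fin n → B) (v : Fin g → B) : Set (Pol k n g) :=
  {p | ∃ r : FreeAlgebra k (Fin n), pres k x r = 0 ∧ ∃ a b, p = ptRep (k := k) (genPt k n g) r a b} ∪
  {p | ∃ (w : FreeAlgebra k (Fin n)) (i : Fin g), pres k x w = v i ∧
    ∃ a, p = (ptRep (k := k) (genPt k n g) w).mulVec (ptVec (genPt k n g)) a
      - (Pi.single i 1 : Fin g → Pol k n g) a}

/-- **the coordinate ring of the chart `Hilb_V`.** -/
abbrev HV (x : Fin n → B) (v : Fin g → B) : Type u := Pol k n g ⧸ Ideal.span (rels k x v)

theorem HV.finiteType (x : Fin n → B) (v : Fin g → B) : Algebra.FiniteType k (HV k x v) :=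
  Algebra.FiniteType.of_surjective (Ideal.Quotient.mkₐ k (Ideal.span (rels k x v)))
    (Ideal.Quotient.mkₐ_surjective k _)

section Eval

variable {k} {A : Type w} [CommRing A] [Algebra k A]

theorem aeval_comp_genPt (f : Idx n g → A) :
    (MvPolynomial.aeval f : Pol k n g →ₐ[k] A) ∘ genPt k n g = f := by
  funext idx
  rw [Function.comp_apply, genPt, MvPolynomial.aeval_X]

theorem aeval_ptRep_genPt (f : Idx n g → A) (w : FreeAlgebra k (Fin n)) :
    (ptRep (k := k) (genPt k n g) w).map (MvPolynomial.aeval f : Pol k n g →ₐ[k] A) =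
      ptRep (k := k) f w := by
  rw [map_ptRep, aeval_comp_genPt]

/-- the evaluation at `f` kills the relations iff `f` is a point of the chart. -/
theorem aeval_rels_iff (x : Fin n → B) (v : Fin g → B) (f : Idx n g → A) :
    (∀ p ∈ rels k x v, MvPolynomial.aeval f p = 0) ↔ IsPt k x v f := by
  constructor
  · intro h
    refine ⟨fun r hr => ?_, fun w i hw => ?_⟩
    · ext a b
      rw [← aeval_ptRep_genPt f r, Matrix.map_apply, Matrix.zero_apply]
      exact h _ (Or.inl ⟨r, hr, a, b, rfl⟩)
    · funext a
      have h1 := h _ (Or.inr ⟨w, i, hw, a, rfl⟩)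
      rw [map_sub, sub_eq_zero] at h1
      have h2 := RingHom.map_mulVec ((MvPolynomial.aeval f : Pol k n g →ₐ[k] A) : Pol k n g →+* A)
        (ptRep (k := k) (genPt k n g) w) (ptVec (genPt k n g)) a
      have h3 : (ptRep (k := k) (genPt k n g) w).map
          ⇑((MvPolynomial.aeval f : Pol k n g →ₐ[k] A) : Pol k n g →+* A) = ptRep (k := k) f w :=
        aeval_ptRep_genPt f w
      have h4 : ⇑((MvPolynomial.aeval f : Pol k n g →ₐ[k] A) : Pol k n g →+* A) ∘
          ptVec (genPt k n g) = ptVec f := by
        funext a'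
        simp only [Function.comp_apply, ptVec, genPt, RingHom.coe_coe, MvPolynomial.aeval_X]
      rw [h3, h4] at h2
      rw [← h2]
      refine Eq.trans h1 ?_
      by_cases hai : a = i
      · subst hai
        rw [Pi.single_eq_same, Pi.single_eq_same, map_one]
      · rw [Pi.single_eq_of_ne hai, Pi.single_eq_of_ne hai, map_zero]
  · rintro ⟨h1, h2⟩ p hp
    rcases hp with ⟨r, hr, a, b, rfl⟩ | ⟨w, i, hw, a, rfl⟩
    · have := h1 r hr
      rw [← aeval_ptRep_genPt f r] at this
      have h3 := congrFun (congrFun this a) b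
      rwa [Matrix.map_apply, Matrix.zero_apply] at h3
    · have h3 := RingHom.map_mulVec
        ((MvPolynomial.aeval f : Pol k n g →ₐ[k] A) : Pol k n g →+* A)
        (ptRep (k := k) (genPt k n g) w) (ptVec (genPt k n g)) a
      have h4 : (ptRep (k := k) (genPt k n g) w).map
          ⇑((MvPolynomial.aeval f : Pol k n g →ₐ[k] A) : Pol k n g →+* A) = ptRep (k := k) f w :=
        aeval_ptRep_genPt f w
      have h5 : ⇑((MvPolynomial.aeval f : Pol k n g →ₐ[k] A) : Pol k n g →+* A) ∘
          ptVec (genPt k n g) = ptVec f := by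
        funext a'
        simp only [Function.comp_apply, ptVec, genPt, RingHom.coe_coe, MvPolynomial.aeval_X]
      rw [h4, h5, h2 w i hw] at h3
      rw [map_sub, sub_eq_zero]
      refine Eq.trans h3 ?_
      by_cases hai : a = i
      · subst hai
        rw [Pi.single_eq_same, Pi.single_eq_same, map_one]
      · rw [Pi.single_eq_of_ne hai, Pi.single_eq_of_ne hai, map_zero]

end Eval

end Fermat.Agent.Jac.HilbChart87
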