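/-
Programme JAC (S25), brick A4a HilbChart (helper87), file 5: representability.

* `homEquivPt`      : `(HV k x v →ₐ[k] A) ≃ {f // IsPt k x v f}`;
* `ptEquivMatPt`    : `{f // IsPt k x v f} ≃ MatPt k v A` (needs that `x` generates `B`);
* `homEquivMatPt`   : the composite, and its naturality `homEquivMatPt_comp`;
* `univPt`, `univIdeal` : the universal matrix point / ideal over `HV k x v`;
* **`existsUnique_hom`** : for every `k`-algebra `A` (any universe) and every `I ∈ HilbV k v A` there
  is a unique `φ : HV k x v →ₐ[k] A` with `Ideal.map (φ ⊗ id) univIdeal = I`;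
* `homEquivHilb : (HV k x v →ₐ[k] A) ≃ HilbV k v A`, `homEquivHilb_apply`, `homEquivHilb_comp`.
-/
import Mathlib
import Fermat.Agent.Jac.HilbChart87.Universal

set_option autoImplicit false

open scoped TensorProduct

namespace Fermat.Agent.Jac.HilbChart87

universe u v w w'

variable {k : Type u} [CommRing k] {B : Type v} [CommRing B] [Algebra k B] {n g : ℕ}
  (x : Fin n → B) (v : Fin g → B) {A : Type w} [CommRing A] [Algebra k A]
  {A' : Type w'} [CommRing A'] [Algebra k A']

/-- the coordinates of a homomorphism `HV → A`. -/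
noncomputable def homPt (φ : HV k x v →ₐ[k] A) : Idx n g → A :=
  fun idx => φ (Ideal.Quotient.mk _ (MvPolynomial.X idx))

theorem comp_mkₐ_eq_aeval (φ : HV k x v →ₐ[k] A) :
    φ.comp (Ideal.Quotient.mkₐ k (Ideal.span (rels k x v))) = MvPolynomial.aeval (homPt x v φ) := by
  apply MvPolynomial.algHom_ext
  intro idx
  rw [MvPolynomial.aeval_X]
  rfl

theorem isPt_homPt (φ : HV k x v →ₐ[k] A) : IsPt k x v (homPt x v φ) := by
  rw [← aeval_rels_iff]
  intro p hp
  rw [← comp_mkₐ_eq_aeval, AlgHom.comp_apply, Ideal.Quotient.mkₐ_eq_mk,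
    Ideal.Quotient.eq_zero_iff_mem.mpr (Ideal.subset_span hp), map_zero]

theorem aeval_eq_zero_of_isPt {f : Idx n g → A} (hf : IsPt k x v f) :
    ∀ p ∈ Ideal.span (rels k x v), (MvPolynomial.aeval f : Pol k n g →ₐ[k] A) p = 0 := by
  have h := (aeval_rels_iff x v f).mpr hf
  have hle : Ideal.span (rels k x v) ≤
      RingHom.ker ((MvPolynomial.aeval f : Pol k n g →ₐ[k] A) : Pol k n g →+* A) := by
    rw [Ideal.span_le]
    intro p hp
    exact h p hp
  intro p hp
  exact hle hp

/-- homomorphisms out of `HV` are the points of the chart. -/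
noncomputable def homEquivPt : (HV k x v →ₐ[k] A) ≃ {f : Idx n g → A // IsPt k x v f} where
  toFun φ := ⟨homPt x v φ, isPt_homPt x v φ⟩
  invFun f := Ideal.Quotient.liftₐ (Ideal.span (rels k x v)) (MvPolynomial.aeval f.1)
    (aeval_eq_zero_of_isPt x v f.2)
  left_inv φ := by
    apply Ideal.Quotient.algHom_ext
    rw [Ideal.Quotient.liftₐ_comp, comp_mkₐ_eq_aeval]
  right_inv f := by
    apply Subtype.ext
    funext idx
    show (MvPolynomial.aeval f.1 : Pol k n g →ₐ[k] A) (MvPolynomial.X idx) = f.1 idx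
    exact MvPolynomial.aeval_X f.1 idx

theorem homEquivPt_apply (φ : HV k x v →ₐ[k] A) : (homEquivPt x v φ).1 = homPt x v φ := rfl

variable {x}

section PtMatPt

variable (hx : Algebra.adjoin k (Set.range x) = ⊤)

theorem ptRep_eq_of_pres_eq {f : Idx n g → A} (hf : IsPt k x v f) (w w' : FreeAlgebra k (Fin n))
    (h : pres k x w = pres k x w') : ptRep (k := k) f w = ptRep (k := k) f w' := by
  have h0 : pres k x (w - w') = 0 := by rw [map_sub, h, sub_self]
  have h1 := hf.1 _ h0
  rw [map_sub, sub_eq_zero] at h1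
  exact h1

/-- the matrix point of a point of the chart. -/
noncomputable def ptToMatPt (f : {f : Idx n g → A // IsPt k x v f}) : MatPt k v A where
  ρ := descend (pres k x) (pres_surjective k hx) (ptRep (k := k) f.1) (ptRep_eq_of_pres_eq v f.2)
  e := ptVec f.1
  cyc i := by
    obtain ⟨w, hw⟩ := pres_surjective k hx (v i)
    rw [← hw, descend_apply]
    exact f.2.2 w i hw

theorem ptToMatPt_ρ_pres (f : {f : Idx n g → A // IsPt k x v f}) (w : FreeAlgebra k (Fin n)) :
    (ptToMatPt v hx f).ρ (pres k x w) = ptRep (k := k) f.1 w :=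
  descend_apply (pres k x) (pres_surjective k hx) (ptRep (k := k) f.1)
    (ptRep_eq_of_pres_eq v f.2) w

theorem ptToMatPt_e (f : {f : Idx n g → A // IsPt k x v f}) : (ptToMatPt v hx f).e = ptVec f.1 :=
  rfl

variable {v}

/-- the coordinates of a matrix point. -/
def matPtCoord (x : Fin n → B) (p : MatPt k v A) : Idx n g → A :=
  Sum.elim (fun jab => p.ρ (x jab.1) jab.2.1 jab.2.2) p.e

theorem ptRep_matPtCoord (p : MatPt k v A) :
    ptRep (k := k) (matPtCoord x p) = p.ρ.comp (pres k x) := by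
  apply FreeAlgebra.hom_ext
  funext j
  simp only [Function.comp_apply, AlgHom.comp_apply, ptRep_ι, pres_ι]
  ext a b
  rfl

theorem isPt_matPtCoord (p : MatPt k v A) : IsPt k x v (matPtCoord x p) := by
  refine ⟨fun r hr => ?_, fun w i hw => ?_⟩
  · rw [ptRep_matPtCoord, AlgHom.comp_apply, hr, map_zero]
  · rw [ptRep_matPtCoord, AlgHom.comp_apply, hw]
    exact p.cyc i

variable (v)

/-- points of the chart are matrix points. -/
noncomputable def ptEquivMatPt : {f : Idx n g → A // IsPt k x v f} ≃ MatPt k v A where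
  toFun f := ptToMatPt v hx f
  invFun p := ⟨matPtCoord x p, isPt_matPtCoord p⟩
  left_inv f := by
    apply Subtype.ext
    funext idx
    rcases idx with ⟨j, a, b⟩ | a
    · show (ptToMatPt v hx f).ρ (x j) a b = f.1 (Sum.inl (j, a, b))
      rw [← pres_ι k x j, ptToMatPt_ρ_pres, ptRep_ι]
      rfl
    · rfl
  right_inv p := by
    apply MatPt.ext'
    · apply AlgHom.ext
      intro b
      obtain ⟨w, rfl⟩ := pres_surjective k hx b
      rw [ptToMatPt_ρ_pres]
      show ptRep (k := k) (matPtCoord x p) w = _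
      rw [ptRep_matPtCoord, AlgHom.comp_apply]
    · rfl

/-- **`HV k x v` represents matrix points.** -/
noncomputable def homEquivMatPt : (HV k x v →ₐ[k] A) ≃ MatPt k v A :=
  (homEquivPt x v).trans (ptEquivMatPt v hx)

theorem homEquivMatPt_e (φ : HV k x v →ₐ[k] A) :
    (homEquivMatPt v hx φ).e = ptVec (homPt x v φ) := rfl

theorem homEquivMatPt_ρ_pres (φ : HV k x v →ₐ[k] A) (w : FreeAlgebra k (Fin n)) :
    (homEquivMatPt v hx φ).ρ (pres k x w) = ptRep (k := k) (homPt x v φ) w :=
  ptToMatPt_ρ_pres v hx _ w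

/-- naturality in `A`. -/
theorem homEquivMatPt_comp (ψ : A →ₐ[k] A') (φ : HV k x v →ₐ[k] A) :
    homEquivMatPt v hx (ψ.comp φ) = (homEquivMatPt v hx φ).map ψ := by
  have hpt : homPt x v (ψ.comp φ) = ψ ∘ homPt x v φ := rfl
  apply MatPt.ext'
  · apply AlgHom.ext
    intro b
    obtain ⟨w, rfl⟩ := pres_surjective k hx b
    rw [homEquivMatPt_ρ_pres, MatPt.map_ρ_apply, homEquivMatPt_ρ_pres, hpt, map_ptRep]
  · rw [MatPt.map_e, homEquivMatPt_e, homEquivMatPt_e, hpt]
    rfl

/-- the universal matrix point. -/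
noncomputable def univPt : MatPt k v (HV k x v) := homEquivMatPt v hx (AlgHom.id k (HV k x v))

/-- **the universal ideal** of `HV k x v ⊗ B`. -/
noncomputable def univIdeal : Ideal (HV k x v ⊗[k] B) := (univPt v hx).ideal

theorem univIdeal_mem : univIdeal v hx ∈ HilbV k v (HV k x v) := (univPt v hx).ideal_mem_hilbV

theorem univPt_map (φ : HV k x v →ₐ[k] A) : (univPt v hx).map φ = homEquivMatPt v hx φ := by
  rw [univPt, ← homEquivMatPt_comp, AlgHom.comp_id]

theorem map_univIdeal (φ : HV k x v →ₐ[k] A) :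
    Ideal.map (tmap φ) (univIdeal v hx) = (homEquivMatPt v hx φ).ideal := by
  rw [univIdeal, ← MatPt.ideal_map, univPt_map]

/-- **`HV k x v` represents `Hilb_V`.** -/
noncomputable def homEquivHilb : (HV k x v →ₐ[k] A) ≃ HilbV k v A :=
  (homEquivMatPt v hx).trans MatPt.equivHilb

theorem homEquivHilb_apply (φ : HV k x v →ₐ[k] A) :
    (homEquivHilb v hx φ : Ideal (A ⊗[k] B)) = Ideal.map (tmap φ) (univIdeal v hx) := by
  rw [map_univIdeal]
  rfl

/-- naturality of `homEquivHilb`. -/
theorem homEquivHilb_comp (ψ : A →ₐ[k] A') (φ : HV k x v →ₐ[k] A) :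
    (homEquivHilb v hx (ψ.comp φ) : Ideal (A' ⊗[k] B)) =
      Ideal.map (tmap ψ) (homEquivHilb v hx φ : Ideal (A ⊗[k] B)) := by
  show (homEquivMatPt v hx (ψ.comp φ)).ideal = Ideal.map (tmap ψ) (homEquivMatPt v hx φ).ideal
  rw [homEquivMatPt_comp, MatPt.ideal_map]

/-- **the universal property of `(HV k x v, univIdeal)`.** -/
theorem existsUnique_hom {I : Ideal (A ⊗[k] B)} (hI : I ∈ HilbV k v A) :
    ∃! φ : HV k x v →ₐ[k] A, Ideal.map (tmap φ) (univIdeal v hx) = I := by
  refine ⟨(homEquivHilb v hx).symm ⟨I, hI⟩, ?_, ?_⟩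
  · show Ideal.map (tmap ((homEquivHilb v hx).symm ⟨I, hI⟩)) (univIdeal v hx) = I
    rw [← homEquivHilb_apply, Equiv.apply_symm_apply]
  · intro φ hφ
    apply (homEquivHilb v hx).injective
    rw [Equiv.apply_symm_apply]
    apply Subtype.ext
    rw [homEquivHilb_apply]
    exact hφ

end PtMatPt

end Fermat.Agent.Jac.HilbChart87
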